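import Mathlib.AlgebraicGeometry.EllipticCurve.Affine.Point
import Mathlib.AlgebraicGeometry.EllipticCurve.VariableChange
import Mathlib.Tactic

/-!
Points of order five on a Weierstrass curve: the Tate normal form parameter `b`.
-/

set_option autoImplicit false

open WeierstrassCurve WeierstrassCurve.Affine

namespace Fermat.Agent.Small5

set_option linter.unusedSectionVars false

variable {F : Type*} [Field F] [DecidableEq F] {W : WeierstrassCurve F}

/-- `x`-coordinate, with junk value at the origin. -/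
def xc : W.toAffine.Point → F
  | .zero => 0
  | .some x _ _ => x

/-- `2 y + a₁ x + a₃`, with junk value at the origin. -/
def pc : W.toAffine.Point → F
  | .zero => 0
  | .some x y _ => y - W.toAffine.negY x y

/-- The Tate normal form parameter of a point of order five. -/
noncomputable def tateB (Q : W.toAffine.Point) : F := (xc (Q + Q) - xc Q) ^ 3 / pc Q ^ 2

/-- The Hauptmodul of level five at the line spanned by the point. -/
noncomputable def hauptFive (Q : W.toAffine.Point) : F := tateB Q + tateB (Q + Q) - 11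

lemma xc_some {x y : F} (h : W.toAffine.Nonsingular x y) : xc (Point.some x y h) = x := rfl

lemma pc_some {x y : F} (h : W.toAffine.Nonsingular x y) :
    pc (Point.some x y h) = y - W.toAffine.negY x y := rfl

lemma xc_neg (Q : W.toAffine.Point) : xc (-Q) = xc Q := by
  cases Q <;> rfl

lemma pc_neg (Q : W.toAffine.Point) : pc (-Q) = -pc Q := by
  rcases Q with _ | ⟨x, y, h⟩
  · exact (neg_zero (G := F)).symm
  · show W.toAffine.negY x y - W.toAffine.negY x (W.toAffine.negY x y) = -(y - W.toAffine.negY x y)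
    rw [negY_negY, neg_sub]

lemma tateB_neg (Q : W.toAffine.Point) : tateB (-Q) = tateB Q := by
  rw [tateB, tateB, ← neg_add, xc_neg, xc_neg, pc_neg, neg_sq]

lemma hauptFive_neg (Q : W.toAffine.Point) : hauptFive (-Q) = hauptFive Q := by
  rw [hauptFive, hauptFive, ← neg_add, tateB_neg, tateB_neg]

/-- Relations satisfied at an affine point `(x, y)` of order five, with `(x₂, y₂)` its double. -/
structure FiveData (W : WeierstrassCurve F) (x y ℓ x₂ y₂ : F) : Prop where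
  x₂_eq : x₂ = ℓ ^ 2 + W.a₁ * ℓ - W.a₂ - x - x
  y₂_eq : y₂ = -(ℓ * (x₂ - x) + y) - W.a₁ * x₂ - W.a₃
  slope_eq : ℓ * (2 * y + W.a₁ * x + W.a₃) = 3 * x ^ 2 + 2 * W.a₂ * x + W.a₄ - W.a₁ * y
  psi_ne : 2 * y + W.a₁ * x + W.a₃ ≠ 0
  d_ne : x₂ - x ≠ 0
  rel : (2 * y + W.a₁ * x + W.a₃) * (W.a₁ + 2 * ℓ) * (x₂ - x) + (2 * y + W.a₁ * x + W.a₃) ^ 2
    = (x₂ - x) ^ 3
  eqn : y ^ 2 + W.a₁ * x * y + W.a₃ * y = x ^ 3 + W.a₂ * x ^ 2 + W.a₄ * x + W.a₆

omit [DecidableEq F] in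
lemma psi_eq (x y : F) : y - W.toAffine.negY x y = 2 * y + W.a₁ * x + W.a₃ := by
  rw [negY]; ring

lemma fiveData {x y : F} (h : W.toAffine.Nonsingular x y)
    (h5 : (5 : ℕ) • Point.some x y h = 0) :
    ∃ (ℓ x₂ y₂ : F) (h₂ : W.toAffine.Nonsingular x₂ y₂),
      Point.some x y h + Point.some x y h = Point.some x₂ y₂ h₂ ∧ FiveData W x y ℓ x₂ y₂ := by
  set P := Point.some x y h with hP
  have hP0 : P ≠ 0 := Point.some_ne_zero h
  have e5 : (P + P) + (P + P) + P = 0 := by rw [← h5]; abel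
  have hy : y ≠ W.toAffine.negY x y := by
    intro e
    have h2 : P + P = 0 := Point.add_self_of_Y_eq e
    exact hP0 (by simpa only [h2, add_zero, zero_add] using e5)
  have hψ : 2 * y + W.a₁ * x + W.a₃ ≠ 0 := by rw [← psi_eq]; exact sub_ne_zero.mpr hy
  set ℓ := W.toAffine.slope x x y y with hℓ
  set x₂ := W.toAffine.addX x x ℓ with hx₂
  set y₂ := W.toAffine.addY x x y ℓ with hy₂
  have h₂ : W.toAffine.Nonsingular x₂ y₂ := nonsingular_add h h fun hxy => hy hxy.2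
  have h2P : P + P = Point.some x₂ y₂ h₂ := Point.add_self_of_Y_ne hy
  have hne : x ≠ x₂ := by
    intro e
    rcases (Point.X_eq_iff (h₁ := h) (h₂ := h₂)).mp e with e | e <;> rw [← h2P, ← hP] at e
    · exact hP0 (left_eq_add.mp e)
    · have h3 : P + P + P = 0 := by
        rw [eq_neg_iff_add_eq_zero] at e
        rw [← e]; abel
      have : P + P = 0 := by
        have : (P + P + P) + (P + P) = 0 := by rw [← e5]; abel
        rwa [h3, zero_add] at this
      exact hP0 (by simpa only [this, zero_add] using h3)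
  have h3P : P + (P + P) = -(P + P) := by
    rw [eq_neg_iff_add_eq_zero, ← e5]; abel
  rw [h2P, hP, Point.add_of_X_ne hne, Point.neg_some, Point.some.injEq] at h3P
  have hx3 := h3P.1
  have hℓeq : ℓ * (2 * y + W.a₁ * x + W.a₃)
      = 3 * x ^ 2 + 2 * W.a₂ * x + W.a₄ - W.a₁ * y := by
    rw [hℓ, slope_of_Y_ne rfl hy, psi_eq, div_mul_cancel₀ _ hψ]
  have hy₂' : y₂ = -(ℓ * (x₂ - x) + y) - W.a₁ * x₂ - W.a₃ := rfl
  have hx₂' : x₂ = ℓ ^ 2 + W.a₁ * ℓ - W.a₂ - x - x := rfl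
  refine ⟨ℓ, x₂, y₂, h₂, h2P, hx₂', hy₂', hℓeq, hψ, sub_ne_zero.mpr hne.symm, ?_,
    (equation_iff x y).mp h.1⟩
  rw [slope_of_X_ne hne, addX] at hx3
  have hd : x - x₂ ≠ 0 := sub_ne_zero.mpr hne
  have hm : (y - y₂) / (x - x₂) * (x - x₂) = y - y₂ := div_mul_cancel₀ _ hd
  generalize hμ : (y - y₂) / (x - x₂) = μ at hx3 hm
  clear_value ℓ x₂ y₂
  subst hy₂'
  have hm' : (μ + ℓ + W.a₁) * (x₂ - x) = -(2 * y + W.a₁ * x + W.a₃) := by
    linear_combination (-1 : F) * hm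
  have hdd : μ * (μ + W.a₁) - ℓ * (ℓ + W.a₁) = x₂ - x := by
    linear_combination hx3 + hx₂'
  linear_combination (x₂ - x) ^ 2 * hdd
    - ((μ - ℓ) * (x₂ - x) - (2 * y + W.a₁ * x + W.a₃)) * hm'

/-- The Tate normal form of a curve at a point of order five. -/
lemma FiveData.exists_variableChange {x y ℓ x₂ y₂ : F} (D : FiveData W x y ℓ x₂ y₂) :
    ∃ C : VariableChange F, C • W =
      ⟨1 - (x₂ - x) ^ 3 / (2 * y + W.a₁ * x + W.a₃) ^ 2,
        -((x₂ - x) ^ 3 / (2 * y + W.a₁ * x + W.a₃) ^ 2),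
        -((x₂ - x) ^ 3 / (2 * y + W.a₁ * x + W.a₃) ^ 2), 0, 0⟩ := by
  obtain ⟨hx₂, -, hℓ, hψ, hd, hrel, heq⟩ := D
  refine ⟨⟨Units.mk0 (-(2 * y + W.a₁ * x + W.a₃) / (x₂ - x))
    (div_ne_zero (neg_ne_zero.mpr hψ) hd), x, ℓ, y⟩, ?_⟩
  have hu : ((Units.mk0 (-(2 * y + W.a₁ * x + W.a₃) / (x₂ - x))
      (div_ne_zero (neg_ne_zero.mpr hψ) hd))⁻¹ : Fˣ).val
      = -(x₂ - x) / (2 * y + W.a₁ * x + W.a₃) := by
    rw [Units.val_inv_eq_inv_val, Units.val_mk0, inv_div, div_neg, neg_div]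
  set ψ := 2 * y + W.a₁ * x + W.a₃ with hψdef
  set d := x₂ - x with hddef
  have h1 : W.a₁ + 2 * ℓ = (d ^ 3 - ψ ^ 2) / (ψ * d) := by
    rw [eq_div_iff (mul_ne_zero hψ hd)]
    linear_combination hrel
  have h2 : W.a₂ - ℓ * W.a₁ + 3 * x - ℓ ^ 2 = -d := by
    linear_combination hddef + hx₂
  have h3 : W.a₃ + x * W.a₁ + 2 * y = ψ := by
    linear_combination (-1 : F) * hψdef
  clear_value ψ d
  ext
  · rw [variableChange_a₁, hu, h1, ← hψdef, ← hddef]
    field_simp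
    ring
  · rw [variableChange_a₂, hu, h2, ← hψdef, ← hddef]
    field_simp
  · rw [variableChange_a₃, hu, h3, ← hψdef, ← hddef]
    field_simp
  · rw [variableChange_a₄]
    refine mul_eq_zero_of_right _ ?_
    linear_combination (-1 : F) * hℓ + ℓ * hψdef
  · rw [variableChange_a₆]
    refine mul_eq_zero_of_right _ ?_
    linear_combination (-1 : F) * heq

/-- `c₆` of the Tate normal form with `b = c`. -/
lemma tate_c₆ (b : F) : (⟨1 - b, -b, -b, 0, 0⟩ : WeierstrassCurve F).c₆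
    = -((b ^ 2 + 1) * (b ^ 4 - 18 * b ^ 3 + 74 * b ^ 2 + 18 * b + 1)) := by
  simp only [c₆, b₂, b₄, b₆]; ring

/-- The discriminant of the Tate normal form with `b = c`. -/
lemma tate_Δ (b : F) : (⟨1 - b, -b, -b, 0, 0⟩ : WeierstrassCurve F).Δ
    = b ^ 5 * (b ^ 2 - 11 * b - 1) := by
  simp only [Δ, b₂, b₄, b₆, b₈]; ring

lemma order_five_spec (Q : W.toAffine.Point) (h0 : Q ≠ 0) (h5 : (5 : ℕ) • Q = 0) :
    tateB Q ≠ 0 ∧ tateB (Q + Q) = -1 / tateB Q ∧
      ∃ C : VariableChange F, C • W = ⟨1 - tateB Q, -tateB Q, -tateB Q, 0, 0⟩ := by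
  obtain _ | ⟨x, y, h⟩ := Q
  · exact absurd rfl h0
  obtain ⟨ℓ, x₂, y₂, h₂, h2P, D⟩ := fiveData h h5
  set P := Point.some x y h with hP
  have hb : tateB P = (x₂ - x) ^ 3 / (2 * y + W.a₁ * x + W.a₃) ^ 2 := by
    rw [tateB, h2P, hP, xc_some, xc_some, pc_some, psi_eq]
  have h4 : (P + P) + (P + P) = -P := by
    rw [eq_neg_iff_add_eq_zero, ← h5]; abel
  have hpc : pc (P + P) * (2 * y + W.a₁ * x + W.a₃) = -(x₂ - x) ^ 3 := by
    rw [h2P, pc_some, psi_eq, D.y₂_eq]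
    linear_combination (-1 : F) * D.rel
  have hb2 : tateB (P + P) = (x - x₂) ^ 3 / pc (P + P) ^ 2 := by
    rw [tateB, h4, xc_neg, h2P, hP, xc_some, xc_some]
  have hψ := D.psi_ne
  have hd := D.d_ne
  refine ⟨?_, ?_, ?_⟩
  · rw [hb]; exact div_ne_zero (pow_ne_zero _ hd) (pow_ne_zero _ hψ)
  · have hpc2 : pc (P + P) = -(x₂ - x) ^ 3 / (2 * y + W.a₁ * x + W.a₃) := by
      rw [← hpc, mul_div_cancel_right₀ _ hψ]
    rw [hb2, hb, hpc2]
    field_simp
    ring
  · rw [hb]; exact D.exists_variableChange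

lemma hauptFive_double (Q : W.toAffine.Point) (h5 : (5 : ℕ) • Q = 0) :
    hauptFive (Q + Q) = hauptFive Q := by
  have h4 : (Q + Q) + (Q + Q) = -Q := by
    rw [eq_neg_iff_add_eq_zero, ← h5]; abel
  rw [hauptFive, hauptFive, h4, tateB_neg, add_comm (tateB (Q + Q))]

lemma hauptFive_multiple (Q : W.toAffine.Point) (h5 : (5 : ℕ) • Q = 0) (k : ℕ)
    (hk : k • Q ≠ 0) : hauptFive (k • Q) = hauptFive Q := by
  have e : k • Q = (k % 5) • Q := by
    conv_lhs => rw [← Nat.mod_add_div k 5, add_nsmul, mul_nsmul, h5, nsmul_zero, add_zero]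
  have h3 : (3 : ℕ) • Q = -(Q + Q) := by
    rw [eq_neg_iff_add_eq_zero, ← h5]; abel
  have h4 : (4 : ℕ) • Q = -Q := by
    rw [eq_neg_iff_add_eq_zero, ← h5]; abel
  have hlt : k % 5 < 5 := Nat.mod_lt _ (by norm_num)
  rw [e] at hk ⊢
  interval_cases (k % 5)
  · simp at hk
  · rw [one_nsmul]
  · rw [two_nsmul, hauptFive_double Q h5]
  · rw [h3, hauptFive_neg, hauptFive_double Q h5]
  · rw [h4, hauptFive_neg]

end Fermat.Agent.Small5
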