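import Mathlib.Algebra.Polynomial.Roots
import Mathlib.Tactic
import Fermat.Agent.Small5.TateNormal

/-!
A Weierstrass curve over a field of characteristic zero has at most `25` points killed by `5`.
-/

set_option autoImplicit false
set_option linter.unusedSectionVars false

open WeierstrassCurve WeierstrassCurve.Affine Polynomial

namespace Fermat.Agent.Small5

variable {F : Type*} [Field F] [CharZero F] [DecidableEq F] (W : WeierstrassCurve F)

/-- `4 X³ + b₂ X² + 2 b₄ X + b₆`. -/
noncomputable def twoPol : F[X] :=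
  C 4 * X ^ 3 + C W.b₂ * X ^ 2 + C (2 * W.b₄) * X + C W.b₆

/-- Half the derivative of `twoPol`. -/
noncomputable def halfDerivPol : F[X] := C 6 * X ^ 2 + C W.b₂ * X + C W.b₄

/-- Minus the `3`-division polynomial. -/
noncomputable def threePol : F[X] :=
  C (1 / 4) * halfDerivPol W ^ 2 - (C (W.b₂ / 4) + C 3 * X) * twoPol W

/-- A polynomial vanishing at the `x`-coordinates of the points of order five. -/
noncomputable def fivePol : F[X] :=
  halfDerivPol W * threePol W * twoPol W ^ 2 + twoPol W ^ 4 - threePol W ^ 3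

lemma fivePol_coeff : (fivePol W).coeff 12 = -5 := by
  simp only [fivePol, threePol, halfDerivPol, twoPol]
  compute_degree!

lemma fivePol_natDegree : (fivePol W).natDegree ≤ 12 := by
  simp only [fivePol, threePol, halfDerivPol, twoPol]
  compute_degree

lemma fivePol_ne_zero : fivePol W ≠ 0 := by
  intro h
  have := fivePol_coeff W
  rw [h, coeff_zero] at this
  norm_num at this

lemma fivePol_isRoot {x y : F} (h : W.toAffine.Nonsingular x y)
    (h5 : (5 : ℕ) • Point.some x y h = 0) : (fivePol W).IsRoot x := by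
  obtain ⟨ℓ, x₂, y₂, h₂, -, D⟩ := fiveData h h5
  obtain ⟨hx₂, -, hℓ, hψ, hd, hrel, heq⟩ := D
  set ψ := 2 * y + W.a₁ * x + W.a₃ with hψdef
  set d := x₂ - x with hddef
  have hF : (twoPol W).eval x = ψ ^ 2 := by
    simp only [twoPol, eval_add, eval_mul, eval_C, eval_pow, eval_X, b₂, b₄, b₆, hψdef]
    linear_combination (-4 : F) * heq
  have hG : (halfDerivPol W).eval x = ψ * (W.a₁ + 2 * ℓ) := by
    simp only [halfDerivPol, eval_add, eval_mul, eval_C, eval_pow, eval_X, b₂, b₄]
    linear_combination (-2 : F) * hℓ - W.a₁ * hψdef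
  have hH : (threePol W).eval x = d * ψ ^ 2 := by
    simp only [threePol, eval_sub, eval_add, eval_mul, eval_C, eval_pow, eval_X, hF, hG, b₂]
    linear_combination (-ψ ^ 2) * (hddef + hx₂)
  rw [IsRoot.def, fivePol]
  simp only [eval_sub, eval_add, eval_mul, eval_pow, hF, hG, hH]
  linear_combination ψ ^ 6 * hrel

/-- Every point killed by `5` lies in a set of at most `25` points. -/
lemma exists_finset_five_torsion : ∃ S : Finset W.toAffine.Point,
    S.card ≤ 25 ∧ ∀ Q : W.toAffine.Point, (5 : ℕ) • Q = 0 → Q ∈ S := by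
  classical
  let R : Finset F := (fivePol W).roots.toFinset
  let sel : F → W.toAffine.Point := fun x =>
    if h : ∃ Q : W.toAffine.Point, xc Q = x ∧ Q ≠ 0 then h.choose else 0
  refine ⟨insert 0 (R.image sel ∪ R.image (fun x => -sel x)), ?_, ?_⟩
  · have hR : R.card ≤ 12 :=
      (Multiset.toFinset_card_le _).trans ((card_roots' _).trans (fivePol_natDegree W))
    have h1 := Finset.card_insert_le (0 : W.toAffine.Point)
      (R.image sel ∪ R.image (fun x => -sel x))
    have h2 := Finset.card_union_le (R.image sel) (R.image (fun x => -sel x))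
    have h3 : (R.image sel).card ≤ R.card := Finset.card_image_le
    have h4 : (R.image (fun x => -sel x)).card ≤ R.card := Finset.card_image_le
    omega
  · rintro (_ | ⟨x, y, h⟩) h5
    · exact Finset.mem_insert_self _ _
    have hx : x ∈ R := Multiset.mem_toFinset.mpr
      ((mem_roots (fivePol_ne_zero W)).mpr (fivePol_isRoot W h h5))
    have hex : ∃ Q : W.toAffine.Point, xc Q = x ∧ Q ≠ 0 :=
      ⟨Point.some x y h, rfl, Point.some_ne_zero h⟩
    have hsel : sel x = hex.choose := dif_pos hex
    obtain ⟨hq, hq0⟩ := hex.choose_spec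
    refine Finset.mem_insert_of_mem (Finset.mem_union.mpr ?_)
    have key : ∀ Q : W.toAffine.Point, xc Q = x → Q ≠ 0 →
        Point.some x y h = Q ∨ Point.some x y h = -Q := by
      rintro (_ | ⟨x', y', h'⟩) hQ hQ0
      · exact absurd rfl hQ0
      · exact Point.X_eq_iff.mp (hQ.symm : x = x')
    rcases key _ hq hq0 with e | e
    · exact Or.inl (Finset.mem_image.mpr ⟨x, hx, by rw [hsel, ← e]⟩)
    · exact Or.inr (Finset.mem_image.mpr ⟨x, hx, by rw [hsel, ← e]⟩)

end Fermat.Agent.Small5
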