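import Mathlib.NumberTheory.PythagoreanTriples
import Mathlib.Data.Rat.Lemmas
import Mathlib.Data.ZMod.Basic
import Mathlib.Tactic

/-!
The curve `s^2 = t (t^2 + 22 t + 125)` (conductor 20) has no rational points with `t ≠ 0`.
-/

set_option autoImplicit false

namespace Fermat.Agent.Small5

/-- The quartic form attached to the descent. -/
def quartic (r s : ℤ) : ℤ := r ^ 4 + 22 * r ^ 2 * s ^ 2 + 125 * s ^ 4

lemma sq_ne_twenty : ∀ w : ZMod 32, w ^ 2 ≠ 20 := by decide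

lemma sq_eight_of_odd {r : ℤ} (hr : Odd r) : ∃ k, r ^ 2 = 8 * k + 1 := by
  obtain ⟨a, rfl⟩ := hr
  obtain ⟨k, hk⟩ := Int.even_mul_succ_self a
  exact ⟨k, by linear_combination 4 * hk⟩

lemma quartic_odd_odd {r s w : ℤ} (hr : Odd r) (hs : Odd s) : quartic r s ≠ w ^ 2 := by
  intro h
  obtain ⟨k, hk⟩ := sq_eight_of_odd hr
  obtain ⟨l, hl⟩ := sq_eight_of_odd hs
  have e : quartic r s = 20 + 32 * (2 * k ^ 2 + 44 * k * l + 250 * l ^ 2 + 6 * k + 68 * l + 4) := by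
    have : quartic r s = (r ^ 2) ^ 2 + 22 * r ^ 2 * s ^ 2 + 125 * (s ^ 2) ^ 2 := by
      rw [quartic]; ring
    rw [this, hk, hl]; ring
  have e2 := congrArg (fun z : ℤ => (z : ZMod 32)) (h.symm.trans e)
  have h32 : (32 : ZMod 32) = 0 := by decide
  push_cast [h32] at e2
  exact sq_ne_twenty (w : ZMod 32) (by linear_combination e2)

/-- The first half of the descent. -/
lemma first_step {r s w : ℤ} (hrs : IsCoprime r s) (hs : s ≠ 0) (h : quartic r s = w ^ 2) :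
    ∃ M N : ℤ, IsCoprime M N ∧ s ^ 2 = (M * N) ^ 2 ∧ r ^ 2 = M ^ 4 - 11 * M ^ 2 * N ^ 2 - N ^ 4
      ∧ (M + N) % 2 = 1 := by
  have hodd : (r ^ 2 + 11 * s ^ 2) % 2 = 1 := by
    rcases Int.even_or_odd r with hr | hr <;> rcases Int.even_or_odd s with hs' | hs'
    · exact absurd (hrs.isUnit_of_dvd' hr.two_dvd hs'.two_dvd) (by decide)
    · obtain ⟨a, rfl⟩ := hr
      obtain ⟨b, rfl⟩ := hs'
      ring_nf
      omega
    · obtain ⟨a, rfl⟩ := hr
      obtain ⟨b, rfl⟩ := hs'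
      ring_nf
      omega
    · exact absurd h (quartic_odd_odd hr hs')
  have ht : PythagoreanTriple (r ^ 2 + 11 * s ^ 2) (2 * s ^ 2) w := by
    unfold PythagoreanTriple
    rw [quartic] at h
    linear_combination h
  have h2 : IsCoprime (r ^ 2 + 11 * s ^ 2) 2 := by
    refine ⟨1, -((r ^ 2 + 11 * s ^ 2) / 2), ?_⟩
    omega
  have hsc : IsCoprime (r ^ 2 + 11 * s ^ 2) (s ^ 2) :=
    IsCoprime.add_mul_right_left (hrs.pow (m := 2) (n := 2)) 11
  obtain ⟨m, n, hcase, hw, hmn, hpar⟩ := PythagoreanTriple.coprime_classification.mp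
    ⟨ht, Int.isCoprime_iff_gcd_eq_one.mp (h2.mul_right hsc)⟩
  rcases hcase with ⟨hx, hy⟩ | ⟨hx, hy⟩
  swap
  · exfalso
    rw [hx, mul_assoc, Int.mul_emod_right] at hodd
    exact zero_ne_one hodd
  have hmn' : m * n = s ^ 2 := by linarith
  have hmn'' : n * m = s ^ 2 := by linarith
  obtain ⟨M, hM⟩ := Int.sq_of_isCoprime (Int.isCoprime_iff_gcd_eq_one.mpr hmn) hmn'
  obtain ⟨N, hN⟩ := Int.sq_of_isCoprime (Int.isCoprime_iff_gcd_eq_one.mpr hmn).symm hmn''
  have hm2 : m ^ 2 = M ^ 4 := by rcases hM with h | h <;> rw [h] <;> ring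
  have hn2 : n ^ 2 = N ^ 4 := by rcases hN with h | h <;> rw [h] <;> ring
  have hs2 : s ^ 2 = (M * N) ^ 2 := by
    have h4 : (s ^ 2) ^ 2 = ((M * N) ^ 2) ^ 2 := by
      rw [← hmn', mul_pow, hm2, hn2]; ring
    exact (pow_left_inj₀ (sq_nonneg _) (sq_nonneg _) two_ne_zero).mp h4
  refine ⟨M, N, ?_, hs2, ?_, ?_⟩
  · have hc := Int.isCoprime_iff_gcd_eq_one.mpr hmn
    have : IsCoprime (M ^ 2) (N ^ 2) := by
      rcases hM with a | a <;> rcases hN with b | b <;> subst a b <;> simpa [IsCoprime.neg_left_iff, IsCoprime.neg_right_iff] using hc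
    exact (IsCoprime.pow_iff two_pos two_pos).mp this
  · linear_combination hx + hm2 - hn2 - 11 * hs2
  · rcases Int.even_or_odd M with a | a <;> rcases Int.even_or_odd N with b | b <;>
      obtain ⟨a, rfl⟩ := a <;> obtain ⟨b, rfl⟩ := b <;>
      rcases hM with c | c <;> rcases hN with d | d <;> subst c d <;> ring_nf at hpar ⊢ <;> omega

lemma two_not_sq_five : ∀ a b : ZMod 5, a ^ 2 = 2 * b ^ 2 → b = 0 ∧ a = 0 := by decide

/-- Extracting fourth powers. -/
lemma split_fourth {A B n : ℕ} (hAB : Nat.Coprime A B) (h : A * B = 125 * n ^ 4) :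
    ∃ u v : ℕ, A + B = 125 * u ^ 4 + v ^ 4 ∧ n = u * v := by
  have key : ∀ {A B : ℕ}, Nat.Coprime A B → A * B = 125 * n ^ 4 → 125 ∣ A →
      ∃ u v : ℕ, A + B = 125 * u ^ 4 + v ^ 4 ∧ n = u * v := by
    intro A B hAB h hA
    obtain ⟨A', rfl⟩ := hA
    have h' : A' * B = n ^ 4 := by
      apply Nat.eq_of_mul_eq_mul_left (n := 125) (by norm_num)
      rw [← mul_assoc, h]
    have hc : IsUnit (gcd A' B) := by
      rw [gcd_eq_nat_gcd, Nat.isUnit_iff]
      exact (Nat.Coprime.coprime_mul_left hAB)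
    obtain ⟨u, hu⟩ := exists_eq_pow_of_mul_eq_pow hc h'
    have h'' : B * A' = n ^ 4 := by rw [mul_comm, h']
    obtain ⟨v, hv⟩ := exists_eq_pow_of_mul_eq_pow (by rwa [gcd_comm]) h''
    refine ⟨u, v, by rw [hu, hv], ?_⟩
    refine Nat.pow_left_injective (n := 4) (by norm_num) ?_
    show n ^ 4 = (u * v) ^ 4
    rw [mul_pow, ← hu, ← hv, h']
  have h5 : Nat.Prime 5 := by norm_num
  have hd : 5 ^ 3 ∣ A * B := ⟨n ^ 4, by rw [h]; norm_num⟩
  rcases Nat.eq_zero_or_pos n with rfl | hn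
  · rcases Nat.mul_eq_zero.mp (h.trans (by simp)) with rfl | rfl
    · exact ⟨0, 1, by simp_all, by simp⟩
    · exact ⟨0, 1, by simp_all, by simp⟩
  by_cases hA : 5 ∣ A
  · refine key hAB h ?_
    have : Nat.Coprime (5 ^ 3) B := (Nat.Coprime.coprime_dvd_left hA hAB).pow_left 3
    simpa using this.dvd_of_dvd_mul_right hd
  · have : Nat.Coprime (5 ^ 3) A := ((h5.coprime_iff_not_dvd).mpr hA).pow_left 3
    obtain ⟨u, v, e, hn⟩ := key hAB.symm (by rw [mul_comm, h])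
      (by simpa using this.dvd_of_dvd_mul_left hd)
    exact ⟨u, v, by rw [add_comm, e], hn⟩

lemma sq_ne_neg_one_four : ∀ r : ZMod 4, r ^ 2 ≠ -1 := by decide

/-- The second half of the descent. -/
lemma second_step {r M N : ℤ} (hc : IsCoprime M N) (hN : N ≠ 0)
    (h : r ^ 2 = M ^ 4 - 11 * M ^ 2 * N ^ 2 - N ^ 4) (hpar : (M + N) % 2 = 1) :
    ∃ u v : ℤ, u ≠ 0 ∧ u.natAbs < N.natAbs ∧ quartic v u = M ^ 2 := by
  obtain ⟨n, rfl⟩ : (2 : ℤ) ∣ N := by
    by_contra hodd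
    obtain ⟨a, rfl⟩ : (2 : ℤ) ∣ M := by omega
    obtain ⟨b, rfl⟩ : Odd N := Int.not_even_iff_odd.mp fun he => hodd he.two_dvd
    have h' := congrArg (fun z : ℤ => (z : ZMod 4)) h
    have h4 : (4 : ZMod 4) = 0 := by decide
    push_cast at h'
    exact sq_ne_neg_one_four (r : ZMod 4) (by
      linear_combination h' + (4 * (a : ZMod 4) ^ 4
        - 11 * (a : ZMod 4) ^ 2 * (2 * (b : ZMod 4) + 1) ^ 2
        - (4 * (b : ZMod 4) ^ 4 + 8 * (b : ZMod 4) ^ 3 + 6 * (b : ZMod 4) ^ 2 + 2 * (b : ZMod 4)))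
          * h4)
  have hM : Odd M := Int.odd_iff.mpr (by omega)
  have hr : Odd r := by
    by_contra hr
    obtain ⟨a, rfl⟩ := (Int.not_odd_iff_even.mp hr)
    obtain ⟨b, rfl⟩ := hM
    ring_nf at h
    omega
  obtain ⟨A, hA⟩ : (2 : ℤ) ∣ (M ^ 2 - 22 * n ^ 2 - r) := by
    obtain ⟨a, rfl⟩ := hr
    obtain ⟨b, rfl⟩ := hM
    exact ⟨2 * b ^ 2 + 2 * b - 11 * n ^ 2 - a, by ring⟩
  set B := M ^ 2 - 22 * n ^ 2 - A with hB
  have hAB : A * B = 125 * n ^ 4 := by
    have hB2 : 2 * B = M ^ 2 - 22 * n ^ 2 + r := by linarith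
    have e : (2 * A) * (2 * B) = 4 * (125 * n ^ 4) := by
      rw [hB2, ← hA]
      linear_combination (-1 : ℤ) * h
    linarith
  have hn : n ≠ 0 := fun e => hN (by simp [e])
  have hcn : IsCoprime M n := hc.of_mul_right_right
  have hcop : Nat.Coprime A.natAbs B.natAbs := by
    refine Nat.coprime_of_dvd fun q hq hqA hqB => ?_
    have hqA' : (q : ℤ) ∣ A := Int.natCast_dvd.mpr hqA
    have hqB' : (q : ℤ) ∣ B := Int.natCast_dvd.mpr hqB
    have hqL : (q : ℤ) ∣ M ^ 2 - 22 * n ^ 2 := by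
      have := dvd_add hqA' hqB'
      rwa [hB, add_sub_cancel] at this
    have hqP : Prime (q : ℤ) := Nat.prime_iff_prime_int.mp hq
    have hqn : ¬ (q : ℤ) ∣ n := by
      intro hd
      refine hqP.not_isUnit (hcn.isUnit_of_dvd' (hqP.dvd_of_dvd_pow (n := 2) ?_) hd)
      have := dvd_add hqL ((hd.pow two_ne_zero).mul_left 22)
      simpa using this
    have h125 : (q : ℤ) ∣ 125 * n ^ 4 := hAB ▸ hqA'.mul_right B
    rcases hqP.dvd_or_dvd h125 with h5 | h5
    · have h5' : q ∣ 5 ^ 3 := by exact_mod_cast h5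
      have hq5 : q = 5 :=
        (Nat.prime_dvd_prime_iff_eq hq (by norm_num)).mp (hq.dvd_of_dvd_pow h5')
      subst hq5
      have h0 := (ZMod.intCast_zmod_eq_zero_iff_dvd _ 5).mpr hqL
      push_cast at h0
      have h22 : (22 : ZMod 5) = 2 := by decide
      rw [h22, sub_eq_zero] at h0
      exact hqn ((ZMod.intCast_zmod_eq_zero_iff_dvd _ 5).mp (two_not_sq_five _ _ h0).1)
    · exact hqn (hqP.dvd_of_dvd_pow h5)
  obtain ⟨u, v, huv, hnuv⟩ := split_fourth hcop (n := n.natAbs) (by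
    rw [← Int.natAbs_mul, hAB, Int.natAbs_mul, Int.natAbs_pow]; rfl)
  have hn2 : n ^ 2 = (u : ℤ) ^ 2 * (v : ℤ) ^ 2 := by
    rw [← Int.natAbs_sq n, hnuv]; push_cast; ring
  have huv' : |A| + |B| = 125 * (u : ℤ) ^ 4 + (v : ℤ) ^ 4 := by
    rw [Int.abs_eq_natAbs, Int.abs_eq_natAbs]; exact_mod_cast huv
  have hu : (u : ℤ) ≠ 0 := by
    intro hu
    exact hn (pow_eq_zero_iff two_ne_zero |>.mp (by rw [hn2, hu]; ring))
  refine ⟨u, v, hu, ?_, ?_⟩
  · have hv : 0 < v := Nat.pos_of_ne_zero fun hv => hn (Int.natAbs_eq_zero.mp (by simp [hnuv, hv]))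
    have : 0 < n.natAbs := Int.natAbs_pos.mpr hn
    have h1 : u ≤ n.natAbs := hnuv ▸ Nat.le_mul_of_pos_right u hv
    simp only [Int.natAbs_natCast, Int.natAbs_mul, Int.reduceAbs]
    omega
  · rcases le_or_gt 0 A with hA0 | hA0
    · have hB0 : 0 ≤ B := by
        rcases lt_or_eq_of_le hA0 with h0 | h0
        · exact nonneg_of_mul_nonneg_right (by rw [hAB]; positivity) h0
        · exact absurd hAB (by rw [← h0, zero_mul]; positivity)
      rw [abs_of_nonneg hA0, abs_of_nonneg hB0] at huv'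
      rw [quartic]
      linear_combination hB - huv' - 22 * hn2
    · exfalso
      have hB0 : B < 0 := by
        rcases lt_or_ge B 0 with h0 | h0
        · exact h0
        · exfalso
          have := mul_nonpos_of_nonpos_of_nonneg hA0.le h0
          have : (0 : ℤ) < 125 * n ^ 4 := by positivity
          linarith
      rw [abs_of_neg hA0, abs_of_neg hB0] at huv'
      have e : M ^ 2 = -(((v : ℤ) ^ 2 - 11 * (u : ℤ) ^ 2) ^ 2 + 4 * (u : ℤ) ^ 4) := by
        linear_combination 22 * hn2 - hB - huv'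
      have : (0 : ℤ) < (u : ℤ) ^ 4 := by positivity
      nlinarith [sq_nonneg M, sq_nonneg ((v : ℤ) ^ 2 - 11 * (u : ℤ) ^ 2)]

/-- The descent: the quartic represents a square only with `s = 0`. -/
theorem quartic_not_sq : ∀ r s w : ℤ, quartic r s = w ^ 2 → s = 0 := by
  suffices H : ∀ k : ℕ, ∀ r s w : ℤ, s.natAbs = k → quartic r s = w ^ 2 → s = 0 from
    fun r s w h => H _ r s w rfl h
  intro k
  induction k using Nat.strong_induction_on with
  | _ k ih =>
    intro r s w hk h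
    by_contra hs
    rcases eq_or_ne (Int.gcd r s) 1 with hg | hg
    · have hrs : IsCoprime r s := Int.isCoprime_iff_gcd_eq_one.mpr hg
      obtain ⟨M, N, hc, hs2, hr2, hpar⟩ := first_step hrs hs h
      have hMN : M * N ≠ 0 := fun e => hs (pow_eq_zero_iff two_ne_zero |>.mp (by rw [hs2, e]; ring))
      obtain ⟨hM, hN⟩ := mul_ne_zero_iff.mp hMN
      obtain ⟨u, v, hu, hlt, hq⟩ := second_step hc hN hr2 hpar
      have hle : N.natAbs ≤ k := by
        have e : s.natAbs = (M * N).natAbs := Int.natAbs_eq_natAbs_iff.mpr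
          (sq_eq_sq_iff_eq_or_eq_neg.mp hs2)
        rw [← hk, e, Int.natAbs_mul]
        exact Nat.le_mul_of_pos_left _ (Int.natAbs_pos.mpr hM)
      exact hu (ih _ (lt_of_lt_of_le hlt hle) v u M rfl hq)
    · obtain ⟨r', hr'⟩ := Int.gcd_dvd_left r s
      obtain ⟨s', hs'⟩ := Int.gcd_dvd_right r s
      set g := Int.gcd r s with hgdef
      have hg0 : g ≠ 0 := fun e => hs (by rw [hs', e]; simp)
      have hg1 : 1 < g := by omega
      have h2 : ((g : ℤ) ^ 2) ^ 2 * quartic r' s' = w ^ 2 := by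
        rw [← h, hr', hs', quartic, quartic]; ring
      obtain ⟨w', rfl⟩ : (g : ℤ) ^ 2 ∣ w :=
        (Int.pow_dvd_pow_iff two_ne_zero).mp ⟨_, h2.symm⟩
      have hq : quartic r' s' = w' ^ 2 := by
        have : ((g : ℤ) ^ 2) ^ 2 ≠ 0 := by
          have : (g : ℤ) ≠ 0 := by exact_mod_cast hg0
          positivity
        exact mul_left_cancel₀ this (by rw [h2]; ring)
      have hs'0 : s' ≠ 0 := fun e => hs (by rw [hs', e, mul_zero])
      refine hs'0 (ih _ ?_ r' s' w' rfl hq)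
      rw [← hk, hs', Int.natAbs_mul, Int.natAbs_natCast]
      exact lt_mul_left (Int.natAbs_pos.mpr hs'0) hg1

/-- Case of numerator prime to `5`. -/
lemma case_prime_to_five {p q : ℤ} (hc : IsCoprime p q) (hp : ¬ (5 : ℤ) ∣ p) (hq : q ≠ 0)
    (h : IsSquare (p * q * (p ^ 2 + 22 * p * q + 125 * q ^ 2))) : False := by
  obtain ⟨z, hz⟩ := h
  have hQpos : 0 < p ^ 2 + 22 * p * q + 125 * q ^ 2 := by
    have : 0 < q ^ 2 := by positivity
    nlinarith [sq_nonneg (p + 11 * q)]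
  have h5 : IsCoprime p 5 :=
    ((Nat.prime_iff_prime_int.mp (show Nat.Prime 5 by norm_num)).coprime_iff_not_dvd.mpr
      (by exact_mod_cast hp)).symm
  have hcQ : IsCoprime p (p ^ 2 + 22 * p * q + 125 * q ^ 2) := by
    have h125 : IsCoprime p ((5 : ℤ) ^ 3 * q ^ 2) := h5.pow_right.mul_right hc.pow_right
    have e : p ^ 2 + 22 * p * q + 125 * q ^ 2 = 5 ^ 3 * q ^ 2 + p * (p + 22 * q) := by ring
    rw [e]; exact h125.add_mul_left_right _
  have hqQ : IsCoprime q (p ^ 2 + 22 * p * q + 125 * q ^ 2) := by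
    have h' : IsCoprime q (p ^ 2) := hc.symm.pow_right
    have e : p ^ 2 + 22 * p * q + 125 * q ^ 2 = p ^ 2 + q * (22 * p + 125 * q) := by ring
    rw [e]; exact h'.add_mul_left_right _
  set Q := p ^ 2 + 22 * p * q + 125 * q ^ 2 with hQ
  obtain ⟨w, hw⟩ := Int.sq_of_isCoprime (c := z) (IsCoprime.mul_right hcQ.symm hqQ.symm)
    (show Q * (p * q) = z ^ 2 by rw [sq, ← hz]; ring)
  obtain ⟨σ, hσ⟩ := Int.sq_of_isCoprime (c := z) (IsCoprime.mul_right hc.symm hqQ)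
    (show q * (p * Q) = z ^ 2 by rw [sq, ← hz]; ring)
  obtain ⟨r, hr⟩ := Int.sq_of_isCoprime (c := z) (IsCoprime.mul_right hc hcQ)
    (show p * (q * Q) = z ^ 2 by rw [sq, ← hz]; ring)
  have hwQ : Q = w ^ 2 := hw.resolve_right fun e => by nlinarith [sq_nonneg w]
  have hpq : 0 ≤ p * q := nonneg_of_mul_nonneg_left (by rw [hz]; exact mul_self_nonneg z) hQpos
  have hσ0 : σ ≠ 0 := fun e => hq (by rcases hσ with h | h <;> simp [h, e])
  have hp2 : p ^ 2 = r ^ 4 := by rcases hr with h | h <;> rw [h] <;> ring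
  have hq2 : q ^ 2 = σ ^ 4 := by rcases hσ with h | h <;> rw [h] <;> ring
  have hpqv : p * q = r ^ 2 * σ ^ 2 := by
    have h4 : (p * q) ^ 2 = (r ^ 2 * σ ^ 2) ^ 2 := by rw [mul_pow, hp2, hq2]; ring
    exact (pow_left_inj₀ hpq (by positivity) two_ne_zero).mp h4
  refine hσ0 (quartic_not_sq r σ w ?_)
  rw [quartic]
  linear_combination hwQ - hQ - hp2 - 125 * hq2 - 22 * hpqv

/-- Case of numerator exactly divisible by `5`. -/
lemma case_five {P q : ℤ} (hP : ¬ (5 : ℤ) ∣ P) (hq : ¬ (5 : ℤ) ∣ q)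
    (h : IsSquare (P * q * (5 * P ^ 2 + 22 * P * q + 25 * q ^ 2))) : False := by
  obtain ⟨z, hz⟩ := h
  have h' := congrArg (fun z : ℤ => (z : ZMod 5)) hz
  push_cast at h'
  have h5 : (5 : ZMod 5) = 0 := by decide
  have e : (z : ZMod 5) ^ 2 = 2 * ((P * q : ℤ) : ZMod 5) ^ 2 := by
    push_cast
    linear_combination (4 * (P : ZMod 5) ^ 2 * (q : ZMod 5) ^ 2
      + (P : ZMod 5) * (q : ZMod 5) * ((P : ZMod 5) ^ 2 + 5 * (q : ZMod 5) ^ 2)) * h5 - h'
  have h0 := (ZMod.intCast_zmod_eq_zero_iff_dvd _ 5).mp (two_not_sq_five _ _ e).1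
  rcases (Nat.prime_iff_prime_int.mp (show Nat.Prime 5 by norm_num)).dvd_or_dvd h0 with h | h
  · exact hP (by exact_mod_cast h)
  · exact hq (by exact_mod_cast h)

lemma isSquare_of_scaled {X Y c : ℤ} (hc : c ≠ 0) (h : IsSquare X) (e : X = c ^ 2 * Y) :
    IsSquare Y := by
  obtain ⟨z, hz⟩ := h
  obtain ⟨z', rfl⟩ : c ∣ z := (Int.pow_dvd_pow_iff two_ne_zero).mp ⟨Y, by rw [sq z, ← hz, e]⟩
  exact ⟨z', mul_left_cancel₀ (pow_ne_zero 2 hc) (by rw [← e, hz]; ring)⟩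

/-- The only rational points on `s^2 = t (t^2 + 22 t + 125)` have `t = 0`. -/
theorem level_twenty_points {t s : ℚ} (h : t * (t ^ 2 + 22 * t + 125) = s ^ 2) : t = 0 := by
  by_contra ht
  set p : ℤ := t.num with hp
  set q : ℤ := (t.den : ℤ) with hq
  have hq0 : q ≠ 0 := by rw [hq]; exact_mod_cast t.den_ne_zero
  have hp0 : p ≠ 0 := Rat.num_ne_zero.mpr ht
  have hc : IsCoprime p q := Int.isCoprime_iff_gcd_eq_one.mpr (by
    rw [Int.gcd, hq, Int.natAbs_natCast]; exact t.reduced)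
  have hX : IsSquare (p * q * (p ^ 2 + 22 * p * q + 125 * q ^ 2)) := by
    rw [← Rat.isSquare_intCast_iff]
    refine ⟨s * (q : ℚ) ^ 2, ?_⟩
    have e : (p : ℚ) = t * (q : ℚ) := by
      rw [hp, hq, Int.cast_natCast]; exact (Rat.mul_den_eq_num t).symm
    push_cast
    rw [e]
    linear_combination (q : ℚ) ^ 4 * h
  by_cases h5 : (5 : ℤ) ∣ p
  swap
  · exact case_prime_to_five hc h5 hq0 hX
  have hq5 : ¬ (5 : ℤ) ∣ q := fun h' =>
    (Nat.prime_iff_prime_int.mp (show Nat.Prime 5 by norm_num)).not_isUnit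
      (hc.isUnit_of_dvd' (by exact_mod_cast h5) (by exact_mod_cast h'))
  obtain ⟨P, hP⟩ := h5
  by_cases h25 : (5 : ℤ) ∣ P
  swap
  · exact case_five h25 hq5 (isSquare_of_scaled (c := 5) (by norm_num) hX (by rw [hP]; ring))
  obtain ⟨P₂, hP₂⟩ := h25
  by_cases h125 : (5 : ℤ) ∣ P₂
  swap
  · exact case_five hq5 h125
      (isSquare_of_scaled (c := 25) (by norm_num) hX (by rw [hP, hP₂]; ring))
  obtain ⟨P₃, hP₃⟩ := h125
  subst hP₃ hP₂
  refine case_prime_to_five (p := q) (q := P₃) ?_ hq5 ?_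
    (isSquare_of_scaled (c := 125) (by norm_num) hX (by rw [hP]; ring))
  · rw [hP] at hc
    exact (hc.of_mul_left_right.of_mul_left_right.of_mul_left_right).symm
  · intro e; exact hp0 (by rw [hP, e]; ring)

end Fermat.Agent.Small5
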