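import Mathlib.FieldTheory.Galois.Infinite
import Fermat.Prelude.Def_FLTPrelim_CofixedLine
import Fermat.Agent.Galois.QbarInstances
import Fermat.Agent.Small5.TateNormal
import Fermat.Agent.Small5.Bound
import Fermat.Agent.Small5.Descent

/-!
No curve over `ℚ` with nonzero square discriminant has a Galois stable line in its `5`-torsion;
in particular the mod `5` representation of a Frey curve has no Galois stable cofixed line.
-/

set_option autoImplicit false

open WeierstrassCurve WeierstrassCurve.Affine WeierstrassCurve.Affine.Point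

namespace Fermat.Agent.Small5

/-- Algebraic numbers fixed by every automorphism are rational. -/
lemma rational_of_fixed (x : AlgebraicClosure ℚ)
    (hx : ∀ σ : AlgebraicClosure ℚ ≃ₐ[ℚ] AlgebraicClosure ℚ, σ x = x) :
    ∃ q : ℚ, algebraMap ℚ (AlgebraicClosure ℚ) q = x :=
  (InfiniteGalois.mem_range_algebraMap_iff_fixed x).mpr hx

section Equivariance

variable {W : WeierstrassCurve ℚ} (σ : AlgebraicClosure ℚ ≃ₐ[ℚ] AlgebraicClosure ℚ)

lemma xc_smul (Q : (W.toAffine⁄(AlgebraicClosure ℚ)).Point) : xc (σ • Q) = σ (xc Q) := by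
  cases Q
  · exact (_root_.map_zero σ).symm
  · rfl

lemma pc_smul (Q : (W.toAffine⁄(AlgebraicClosure ℚ)).Point) : pc (σ • Q) = σ (pc Q) := by
  rcases Q with _ | ⟨x, y, h⟩
  · exact (_root_.map_zero σ).symm
  · show σ.toAlgHom y - _ = σ.toAlgHom (y - _)
    rw [map_sub]
    exact congrArg _ (baseChange_negY (W' := W.toAffine) σ.toAlgHom x y)

lemma tateB_smul (Q : (W.toAffine⁄(AlgebraicClosure ℚ)).Point) :
    tateB (σ • Q) = σ (tateB Q) := by
  rw [tateB, tateB, ← smul_add, xc_smul, xc_smul, pc_smul, map_div₀, map_pow, map_pow, map_sub]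

lemma hauptFive_smul (Q : (W.toAffine⁄(AlgebraicClosure ℚ)).Point) :
    hauptFive (σ • Q) = σ (hauptFive Q) := by
  rw [hauptFive, hauptFive, ← smul_add, tateB_smul, tateB_smul, map_sub, map_add, map_ofNat]

end Equivariance

/-- A proper nonzero submodule of the `5`-torsion is spanned by any nonzero element. -/
lemma exists_multiple (W : WeierstrassCurve ℚ)
    (N : Submodule (ZMod 5) (Submodule.torsionBy ℤ (W.toAffine⁄(AlgebraicClosure ℚ)).Point (5 : ℕ)))
    (hN : N ≠ ⊤) {q x : Submodule.torsionBy ℤ (W.toAffine⁄(AlgebraicClosure ℚ)).Point (5 : ℕ)}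
    (hq : q ∈ N) (hx : x ∈ N) (hq0 : q ≠ 0) : ∃ k : ℕ, x = k • q := by
  classical
  have : Fact (Nat.Prime 5) := ⟨by norm_num⟩
  by_contra hk
  simp only [not_exists] at hk
  obtain ⟨S, hScard, hS⟩ :=
    exists_finset_five_torsion (F := AlgebraicClosure ℚ) (W⁄(AlgebraicClosure ℚ))
  have hmem : ∀ t : (Submodule.torsionBy ℤ (W.toAffine⁄(AlgebraicClosure ℚ)).Point (5 : ℕ)), (t : (W.toAffine⁄(AlgebraicClosure ℚ)).Point) ∈ S := by
    intro t
    apply hS
    have h := (Submodule.mem_torsionBy_iff _ _).mp t.2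
    rwa [natCast_zsmul] at h
  let ι : (Submodule.torsionBy ℤ (W.toAffine⁄(AlgebraicClosure ℚ)).Point (5 : ℕ)) → S := fun t => ⟨t, hmem t⟩
  have hι : Function.Injective ι := fun a b e => Subtype.ext (congrArg Subtype.val e :)
  have : Finite (Submodule.torsionBy ℤ (W.toAffine⁄(AlgebraicClosure ℚ)).Point (5 : ℕ)) := Finite.of_injective ι hι
  let : Fintype (Submodule.torsionBy ℤ (W.toAffine⁄(AlgebraicClosure ℚ)).Point (5 : ℕ)) := Fintype.ofFinite _
  have hT : Fintype.card (Submodule.torsionBy ℤ (W.toAffine⁄(AlgebraicClosure ℚ)).Point (5 : ℕ)) ≤ 25 :=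
    (Fintype.card_le_of_injective ι hι).trans (by rw [Fintype.card_coe]; exact hScard)
  let f : ZMod 5 × ZMod 5 →ₗ[ZMod 5] (Submodule.torsionBy ℤ (W.toAffine⁄(AlgebraicClosure ℚ)).Point (5 : ℕ)) :=
    (LinearMap.toSpanSingleton (ZMod 5) _ q).coprod (LinearMap.toSpanSingleton (ZMod 5) _ x)
  have hfeq : ∀ v, f v = v.1 • q + v.2 • x := fun v => rfl
  have hf : Function.Injective f := by
    rw [injective_iff_map_eq_zero]
    rintro ⟨i, j⟩ hij
    rw [hfeq] at hij
    simp only at hij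
    rcases eq_or_ne j 0 with rfl | hj
    · rw [zero_smul, add_zero] at hij
      rcases smul_eq_zero.mp hij with rfl | h
      · rfl
      · exact absurd h hq0
    · exfalso
      apply hk (-(j⁻¹ * i) : ZMod 5).val
      rw [← Nat.cast_smul_eq_nsmul (ZMod 5), ZMod.natCast_zmod_val]
      calc x = (j⁻¹ * j) • x := by rw [inv_mul_cancel₀ hj, one_smul]
        _ = j⁻¹ • (j • x) := mul_smul ..
        _ = j⁻¹ • (-(i • q)) := by rw [eq_neg_of_add_eq_zero_right hij]
        _ = (-(j⁻¹ * i)) • q := by rw [smul_neg, ← mul_smul, neg_smul]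
  have hcard : Fintype.card (ZMod 5 × ZMod 5) = Fintype.card (Submodule.torsionBy ℤ (W.toAffine⁄(AlgebraicClosure ℚ)).Point (5 : ℕ)) := by
    refine le_antisymm (Fintype.card_le_of_injective f hf) ?_
    simpa using hT
  have hsurj := ((Fintype.bijective_iff_injective_and_card f).mpr ⟨hf, hcard⟩).2
  refine hN (Submodule.eq_top_iff'.mpr fun t => ?_)
  obtain ⟨v, rfl⟩ := hsurj t
  rw [hfeq]
  exact N.add_mem (N.smul_mem _ hq) (N.smul_mem _ hx)

/-- A curve over `ℚ` with nonzero square discriminant has no rational cyclic `5`-subgroup. -/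
theorem noStableLine5 (W : WeierstrassCurve ℚ) (D : ℚ) (hD : D ≠ 0) (hΔ : W.Δ = D ^ 2)
    (N : Submodule (ZMod 5) (Submodule.torsionBy ℤ (W.toAffine⁄(AlgebraicClosure ℚ)).Point (5 : ℕ)))
    (hstable : IsGaloisStable ℚ N) (hbot : N ≠ ⊥) : N = ⊤ := by
  by_contra htop
  obtain ⟨q, hq, hq0⟩ := (Submodule.ne_bot_iff N).mp hbot
  set Q : (W.toAffine⁄(AlgebraicClosure ℚ)).Point := q.1 with hQ
  have hQ0 : Q ≠ 0 := fun e => hq0 (Subtype.ext e)
  have hQ5 : (5 : ℕ) • Q = 0 := by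
    have h := (Submodule.mem_torsionBy_iff _ _).mp q.2
    rwa [natCast_zsmul] at h
  obtain ⟨t₀, ht₀⟩ := rational_of_fixed (hauptFive Q) fun σ => by
    obtain ⟨k, hk⟩ := exists_multiple W N htop hq (hstable σ q hq) hq0
    have hk' : σ • Q = k • Q := by
      have h := congrArg (fun t => Subtype.val t) hk
      simp only [Submodule.coe_smul_of_tower] at h
      exact h
    have hne : k • Q ≠ 0 := by
      rw [← hk']
      exact fun e => hQ0 (MulAction.injective σ (show σ • Q = σ • 0 from e.trans rfl))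
    rw [← hauptFive_smul, hk', hauptFive_multiple Q hQ5 k hne]
  obtain ⟨hb, hb2, C, hC⟩ := order_five_spec Q hQ0 hQ5
  set b := tateB Q with hbdef
  set t := hauptFive Q with htdef
  have ht : t * b = b ^ 2 - 11 * b - 1 := by
    rw [htdef, hauptFive, hb2, ← hbdef]
    field_simp
    ring
  have hc6 : (W⁄(AlgebraicClosure ℚ)).c₆ = (C.u : AlgebraicClosure ℚ) ^ 6
      * -((b ^ 2 + 1) * (b ^ 4 - 18 * b ^ 3 + 74 * b ^ 2 + 18 * b + 1)) := by
    rw [← tate_c₆ b, ← hC, variableChange_c₆, ← mul_assoc, ← mul_pow, Units.mul_inv, one_pow,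
      one_mul]
  have hΔ' : (W⁄(AlgebraicClosure ℚ)).Δ = (C.u : AlgebraicClosure ℚ) ^ 12 * (b ^ 6 * t) := by
    have e : b ^ 6 * t = b ^ 5 * (b ^ 2 - 11 * b - 1) := by rw [← ht]; ring
    rw [e, ← tate_Δ b, ← hC, variableChange_Δ, ← mul_assoc, ← mul_pow, Units.mul_inv, one_pow,
      one_mul]
  have hmapΔ : (W⁄(AlgebraicClosure ℚ)).Δ = algebraMap ℚ _ (D ^ 2) := by
    rw [← hΔ]; exact W.map_Δ _
  have hmapc : (W⁄(AlgebraicClosure ℚ)).c₆ = algebraMap ℚ _ W.c₆ := W.map_c₆ _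
  have ht0 : t₀ ≠ 0 := by
    intro e
    rw [← ht₀, e, _root_.map_zero] at hΔ'
    rw [hmapΔ, mul_zero, mul_zero] at hΔ'
    exact hD (pow_eq_zero_iff two_ne_zero |>.mp ((map_eq_zero _).mp hΔ'))
  have hq0' : t₀ ^ 2 + 4 * t₀ - 1 ≠ 0 := by
    intro e
    have hsq : IsSquare ((5 : ℕ) : ℚ) := ⟨t₀ + 2, by push_cast; linear_combination (-1 : ℚ) * e⟩
    rw [Rat.isSquare_natCast_iff] at hsq
    exact (show Nat.Prime 5 by norm_num).prime.not_isSquare hsq
  have key : t₀ * (t₀ ^ 2 + 22 * t₀ + 125) * (D * (t₀ ^ 2 + 4 * t₀ - 1)) ^ 2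
      = (W.c₆ * t₀) ^ 2 := by
    apply (algebraMap ℚ (AlgebraicClosure ℚ)).injective
    simp only [map_mul, map_add, map_sub, map_pow, map_ofNat, map_one, ht₀]
    rw [mul_pow (algebraMap ℚ (AlgebraicClosure ℚ) D), ← map_pow, ← hmapΔ, hΔ', ← hmapc, hc6]
    have ht' : t = (b ^ 2 - 11 * b - 1) / b := by rw [← ht, mul_div_cancel_right₀ _ hb]
    rw [ht']
    field_simp
    ring
  refine ht0 (level_twenty_points (s := W.c₆ * t₀ / (D * (t₀ ^ 2 + 4 * t₀ - 1))) ?_)
  rw [div_pow, eq_div_iff (pow_ne_zero _ (mul_ne_zero hD hq0'))]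
  exact key

/-- The discriminant of the Frey curve is a nonzero square. -/
lemma freyCurve_Δ (P : FreyPackage) : P.freyCurve.Δ
    = ((P.a : ℚ) ^ P.p * (P.b : ℚ) ^ P.p * (P.c : ℚ) ^ P.p / 16) ^ 2 := by
  have h : (P.c : ℚ) ^ P.p = (P.a : ℚ) ^ P.p + (P.b : ℚ) ^ P.p := by
    exact_mod_cast P.hFLT.symm
  simp only [FreyPackage.freyCurve, Δ, b₂, b₄, b₆, b₈, h]
  ring

/-- A curve over `ℚ` with nonzero square discriminant has no Galois stable cofixed line mod `5`. -/
theorem noCofixed5_of_square (W : WeierstrassCurve ℚ) (D : ℚ) (hD : D ≠ 0) (hΔ : W.Δ = D ^ 2) :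
    ¬ HasGaloisStableCofixedLine (K := AlgebraicClosure ℚ) ℚ W.toAffine 5 := by
  rintro ⟨N, hstable, hbot, htop, -⟩
  exact htop (noStableLine5 W D hD hΔ N hstable hbot)

/-- The mod `5` representation of a Frey curve has no Galois stable cofixed line. -/
theorem noCofixed5 (P : FreyPackage) (hp : P.p = 5) :
    ¬ HasGaloisStableCofixedLine (K := AlgebraicClosure ℚ) ℚ P.freyCurve P.p := by
  rw [hp]
  refine noCofixed5_of_square P.freyCurve _ ?_ (freyCurve_Δ P)
  have ha : (P.a : ℚ) ≠ 0 := Int.cast_ne_zero.mpr P.ha0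
  have hb : (P.b : ℚ) ≠ 0 := Int.cast_ne_zero.mpr P.hb0
  have hc : (P.c : ℚ) ≠ 0 := Int.cast_ne_zero.mpr P.hc0
  simp [ha, hb, hc]

end Fermat.Agent.Small5
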